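import Mathlib
import Fermat.Prelude.Def_FLTPrelim_FreyPackage
import Fermat.Prelude.Def_FLTPrelim_Modularity

/-!
# P-S44 block A, leaf `Leaf2S` (independent second, helper55): every integral model of the Frey
curve has bad reduction at `2`

`two_dvd_Δ_of_isIntegralModelOf`: `W.IsIntegralModelOf P.freyCurve → (2 : ℤ) ∣ W.Δ`.

Proof.  With `A = a ^ p`, `B = b ^ p`, `C = c ^ p`: `c₄(E) = A² + A B + B²` (odd: `A` odd, `B` even) and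
`Δ(E) = (A B C)² / 2⁸`.  A change of variables multiplies `c₄` by `u⁻⁴` and `Δ` by `u⁻¹²`, so
`c₄(W)³ Δ(E) = c₄(E)³ Δ(W)`, i.e. `c₄(W)³ (A B C)² = 2⁸ c₄(E)³ Δ(W)` in `ℤ`.  The left side is
divisible by `B² = b ^ (2 p)`, hence by `2¹⁰` (`p ≥ 5`); so `4 ∣ c₄(E)³ Δ(W)` and `2 ∣ Δ(W)`.
-/

set_option autoImplicit false

namespace Fermat.Agent.S40x.A2S.TwoBad

open WeierstrassCurve

/-- `c₄` of the Frey curve. -/
theorem freyCurve_c₄ (P : FreyPackage) :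
    P.freyCurve.c₄ = ((P.a : ℚ) ^ P.p) ^ 2 + (P.a : ℚ) ^ P.p * (P.b : ℚ) ^ P.p
      + ((P.b : ℚ) ^ P.p) ^ 2 := by
  simp only [WeierstrassCurve.c₄, WeierstrassCurve.b₂, WeierstrassCurve.b₄,
    FreyPackage.freyCurve]
  ring

/-- `Δ` of the Frey curve. -/
theorem freyCurve_Δ' (P : FreyPackage) :
    P.freyCurve.Δ = ((P.a : ℚ) ^ P.p * (P.b : ℚ) ^ P.p * (P.c : ℚ) ^ P.p) ^ 2 / 2 ^ 8 := by
  have h : ((P.a : ℚ)) ^ P.p + (P.b : ℚ) ^ P.p = (P.c : ℚ) ^ P.p := by exact_mod_cast P.hFLT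
  simp only [WeierstrassCurve.Δ, WeierstrassCurve.b₂, WeierstrassCurve.b₄, WeierstrassCurve.b₆,
    WeierstrassCurve.b₈, FreyPackage.freyCurve]
  rw [← h]
  ring

/-- the invariant `c₄³ / Δ` is preserved by changes of variables, in product form. -/
theorem c₄_pow_mul_Δ_of_variableChange (E : WeierstrassCurve ℚ) (C : VariableChange ℚ) :
    (C • E).c₄ ^ 3 * E.Δ = E.c₄ ^ 3 * (C • E).Δ := by
  rw [variableChange_c₄, variableChange_Δ]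
  ring

/-- the integral identity `c₄(W)³ (A B C)² = 2⁸ (A² + A B + B²)³ Δ(W)`. -/
theorem key_identity (P : FreyPackage) {W : WeierstrassCurve ℤ}
    (hW : W.IsIntegralModelOf P.freyCurve) :
    W.c₄ ^ 3 * (P.a ^ P.p * P.b ^ P.p * P.c ^ P.p) ^ 2 =
      2 ^ 8 * ((P.a ^ P.p) ^ 2 + P.a ^ P.p * P.b ^ P.p + (P.b ^ P.p) ^ 2) ^ 3 * W.Δ := by
  obtain ⟨C, hC⟩ := hW
  have h1 := c₄_pow_mul_Δ_of_variableChange P.freyCurve C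
  rw [hC, map_c₄, map_Δ, freyCurve_c₄, freyCurve_Δ'] at h1
  have h2 : ((W.c₄ : ℤ) : ℚ) ^ 3 *
      ((P.a : ℚ) ^ P.p * (P.b : ℚ) ^ P.p * (P.c : ℚ) ^ P.p) ^ 2 =
      2 ^ 8 * (((P.a : ℚ) ^ P.p) ^ 2 + (P.a : ℚ) ^ P.p * (P.b : ℚ) ^ P.p
        + ((P.b : ℚ) ^ P.p) ^ 2) ^ 3 * ((W.Δ : ℤ) : ℚ) := by
    have h3 : (Int.castRingHom ℚ) W.c₄ = ((W.c₄ : ℤ) : ℚ) := rfl
    have h4 : (Int.castRingHom ℚ) W.Δ = ((W.Δ : ℤ) : ℚ) := rfl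
    rw [h3, h4] at h1
    field_simp at h1
    linarith
  exact_mod_cast h2

/-- **`Leaf2S`.** -/
theorem two_dvd_Δ_of_isIntegralModelOf (P : FreyPackage) (W : WeierstrassCurve ℤ)
    (hW : W.IsIntegralModelOf P.freyCurve) : (2 : ℤ) ∣ W.Δ := by
  have hkey := key_identity P hW
  have hb : (2 : ℤ) ∣ P.b := (ZMod.intCast_zmod_eq_zero_iff_dvd P.b 2).1 P.hb2
  have ha : ¬ (2 : ℤ) ∣ P.a := by
    intro h
    have h4 : ((P.a : ℤ) : ZMod 4) = 3 := P.ha4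
    obtain ⟨k, hk⟩ := h
    rw [hk] at h4
    have : ∀ x : ZMod 4, (2 : ZMod 4) * x ≠ 3 := by decide
    apply this (k : ZMod 4)
    rw [← h4]
    push_cast
    rfl
  have h2p : Prime (2 : ℤ) := Int.prime_two
  -- `2 ^ 10 ∣ (b ^ p) ^ 2`
  have hB : (2 : ℤ) ^ 10 ∣ (P.b ^ P.p) ^ 2 := by
    obtain ⟨k, hk⟩ := hb
    rw [hk, mul_pow, mul_pow, ← pow_mul]
    apply Dvd.dvd.mul_right
    apply pow_dvd_pow
    have := P.hp5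
    omega
  have hL : (2 : ℤ) ^ 10 ∣ W.c₄ ^ 3 * (P.a ^ P.p * P.b ^ P.p * P.c ^ P.p) ^ 2 := by
    rw [mul_pow, mul_pow]
    exact Dvd.dvd.mul_left (Dvd.dvd.mul_right (Dvd.dvd.mul_left hB _) _) _
  rw [hkey] at hL
  -- cancel `2 ^ 8`
  have h4 : (4 : ℤ) ∣ ((P.a ^ P.p) ^ 2 + P.a ^ P.p * P.b ^ P.p + (P.b ^ P.p) ^ 2) ^ 3 * W.Δ := by
    have e : (2 : ℤ) ^ 10 = 2 ^ 8 * 4 := by norm_num
    rw [e, mul_assoc] at hL
    exact (mul_dvd_mul_iff_left (by norm_num : (2 : ℤ) ^ 8 ≠ 0)).mp hL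
  have h2 : (2 : ℤ) ∣ ((P.a ^ P.p) ^ 2 + P.a ^ P.p * P.b ^ P.p + (P.b ^ P.p) ^ 2) ^ 3 * W.Δ :=
    Dvd.dvd.trans (by norm_num) h4
  rcases h2p.dvd_or_dvd h2 with h | h
  · exfalso
    have h' := h2p.dvd_of_dvd_pow h
    -- `A² + A B + B² ≡ A² mod 2`
    have hBp : (2 : ℤ) ∣ P.b ^ P.p := Dvd.dvd.trans hb (dvd_pow_self _ P.hp0)
    have h'' : (2 : ℤ) ∣ (P.a ^ P.p) ^ 2 := by
      have e : (P.a ^ P.p) ^ 2 = ((P.a ^ P.p) ^ 2 + P.a ^ P.p * P.b ^ P.p + (P.b ^ P.p) ^ 2)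
          - (P.a ^ P.p * P.b ^ P.p + (P.b ^ P.p) ^ 2) := by ring
      rw [e]
      exact dvd_sub h' (dvd_add (Dvd.dvd.mul_left hBp _) (Dvd.dvd.trans hBp (dvd_pow_self _ two_ne_zero)))
    exact ha (h2p.dvd_of_dvd_pow (h2p.dvd_of_dvd_pow h''))
  · exact h

end Fermat.Agent.S40x.A2S.TwoBad
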