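import Fermat.Agent.S40x.A.S44SkeletonV2
import Fermat.Agent.S40x.A2S.TwoBad

/-!
# P-S44 block A: the leaf `Leaf2S` of `S40x/A/S44SkeletonV2` is a theorem (helper55, second)
-/

set_option autoImplicit false

namespace Fermat.Agent.S40x.A2S.Leaf2S

/-- **`Leaf2S` holds.** -/
theorem leaf2S : Fermat.Agent.S40x.A.S44SkeletonV2.Leaf2S :=
  fun P W hW => Fermat.Agent.S40x.A2S.TwoBad.two_dvd_Δ_of_isIntegralModelOf P W hW

end Fermat.Agent.S40x.A2S.Leaf2S
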